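/-
FFJ / chapter LEVEL (helper72).  **Flat models descend from the auxiliary level `M = auxLevel ℓ N` to
level `N`.**

`π^* = levelPullback : JZero N →+ JZero M` (`N ∣ M`) is `Gal(ℚ̄/ℚ)`-equivariant
(`PullbackInj12.levelPullback_smul`) and injective on torsion for `M = auxLevel ℓ N`
(`PullbackInj12.levelPullback_auxLevel_eq_zero`).  Hence `J₀(N)[n] ≅ π^*(J₀(N)[n])`, a Galois-stable
subgroup of `J₀(M)[n]`, and a flat model of `J₀(M)[n]` restricts to one of `J₀(N)[n]`
(`Closure68.ModelOf.sub` at `R = ℤ_(ℓ)`, `F = ℚ`, `K = ℚ̄`).  No push-forward is needed.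

* `FlatModel.sub`                 : the global `FlatModel` restricts to Galois-stable subgroups;
* `FlatModel.of_injective`        : and pulls back along injective equivariant homomorphisms;
* `torsAct N n`                   : the Galois action on `J₀(N)[n]` (as a subtype of `JZero N`);
* `flatModel_iff_s19`             : `FlatModel ℓ (J₀(N)[ℓ^k]) (torsAct …)` is the frozen S19 conclusion;
* `flatModel_torsion_of_dvd`      : level `M` ⇒ level `N` when `π^*` is injective on `n`-torsion;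
* `flatModel_torsion_of_auxLevel` : the case `M = auxLevel ℓ N`;
* `s19_of_auxLevel`               : the same, in the literal shape of the frozen S19 conclusion;
* `s19_of_s19_at_auxLevels`       : the frozen S19 statement from the one at levels divisible by 4 or 9.
-/
import Mathlib
import Fermat.Prelude.Def_ModularCurve_ArithmeticGalois
import Fermat.Prelude.Def_GaloisRep_Flat
import Fermat.Agent.TW.FF.Closure68
import Fermat.Agent.IG.VAL.Zl13
import Fermat.Agent.ES.RED.PullbackInj12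

set_option autoImplicit false

noncomputable section

namespace Fermat.Agent.FFJ.Level.Level72

open ModularCurve
open Fermat.Agent.TW.FF.FlatModel68 Fermat.Agent.TW.FF.Closure68
open Fermat.Agent.S19.Shell64
open Fermat.Agent.ES.HECKE.LevelPullback12 Fermat.Agent.ES.RED.PullbackInj12
open Fermat.Agent.RED.Interface4

/-! ### Closure of the global `FlatModel` under stable subgroups and injective pull-back -/

section Closure

variable {ℓ : ℕ} [Fact ℓ.Prime]

/-- `ℚ̄` is an algebraic closure of `ℚ` for the default `ℚ`-algebra structure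
(`DivisionRing.toRatAlgebra`, the one found by instance search). -/
theorem isAlgClosure_Qbar : IsAlgClosure ℚ (AlgebraicClosure ℚ) := by
  have : (DivisionRing.toRatAlgebra : Algebra ℚ (AlgebraicClosure ℚ))
      = AlgebraicClosure.instAlgebra ℚ := Subsingleton.elim _ _
  rw [this]
  infer_instance

/-- `ℚ̄/ℚ` is Galois (for the default `ℚ`-algebra structure). -/
theorem isGalois_Qbar : IsGalois ℚ (AlgebraicClosure ℚ) :=
  haveI := isAlgClosure_Qbar
  IsAlgClosure.isGalois ℚ (AlgebraicClosure ℚ)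

/-- The global `FlatModel` is `ModelOf ℤ_(ℓ) ℚ ℚ̄`. -/
theorem flatModel_iff_modelOf (M : Type) [AddCommGroup M] (act : GQ → M → M) :
    FlatModel ℓ M act ↔
      ModelOf (GaloisRep.ratLocalizedAt ℓ) ℚ (AlgebraicClosure ℚ) M act := Iff.rfl

/-- **`FlatModel` restricts to `Gal(ℚ̄/ℚ)`-stable subgroups.** -/
theorem FlatModel.sub {M : Type} [AddCommGroup M] {act : GQ → M → M}
    (h : FlatModel ℓ M act) (N : AddSubgroup M) (hN : ∀ σ n, n ∈ N → act σ n ∈ N)
    (act' : GQ → N → N) (hact' : ∀ σ (n : N), (act' σ n : M) = act σ n) :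
    FlatModel ℓ N act' := by
  have hgal : IsGalois ℚ (AlgebraicClosure ℚ) := isGalois_Qbar
  exact ModelOf.sub (R := GaloisRep.ratLocalizedAt ℓ) (F := ℚ) (K := AlgebraicClosure ℚ)
    fixedFieldEqBase_of_isGalois h N hN act' hact'

/-- **`FlatModel` pulls back along injective equivariant homomorphisms.** -/
theorem FlatModel.of_injective {A B : Type} [AddCommGroup A] [AddCommGroup B]
    {actA : GQ → A → A} {actB : GQ → B → B} (f : A →+ B) (hf : Function.Injective f)
    (hcomm : ∀ σ a, f (actA σ a) = actB σ (f a)) (hB : FlatModel ℓ B actB) :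
    FlatModel ℓ A actA := by
  have hN : ∀ σ n, n ∈ f.range → actB σ n ∈ f.range := by
    rintro σ _ ⟨a, rfl⟩
    exact ⟨actA σ a, hcomm σ a⟩
  let act' : GQ → f.range → f.range := fun σ n => ⟨actB σ n, hN σ n n.2⟩
  have h1 : FlatModel ℓ f.range act' := FlatModel.sub hB f.range hN act' (fun _ _ => rfl)
  let φ : A ≃+ f.range := AddMonoidHom.ofInjective hf
  refine FlatModel.of_addEquiv φ.symm (fun σ m => ?_) h1
  apply φ.injective
  rw [AddEquiv.apply_symm_apply]
  apply Subtype.ext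
  show actB σ m = f (actA σ (φ.symm m))
  rw [hcomm]
  congr 1
  exact (congrArg Subtype.val (φ.apply_symm_apply m)).symm

end Closure

/-! ### The Galois action on torsion of `J₀(N)` -/

section Torsion

variable (N : ℕ) (n : ℤ)

theorem smul_mem_torsionBy (σ : GQ) {x : JZero N} (hx : x ∈ Submodule.torsionBy ℤ (JZero N) n) :
    σ • x ∈ Submodule.torsionBy ℤ (JZero N) n := by
  rw [Submodule.mem_torsionBy_iff] at hx ⊢
  rw [smul_comm, hx, smul_zero]

/-- The action of `Gal(ℚ̄/ℚ)` on `J₀(N)[n]`. -/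
def torsAct (σ : GQ) (x : ↥(Submodule.torsionBy ℤ (JZero N) n)) :
    ↥(Submodule.torsionBy ℤ (JZero N) n) :=
  ⟨σ • (x : JZero N), smul_mem_torsionBy N n σ x.2⟩

@[simp]
theorem coe_torsAct (σ : GQ) (x : ↥(Submodule.torsionBy ℤ (JZero N) n)) :
    (torsAct N n σ x : JZero N) = σ • (x : JZero N) := rfl

/-- `FlatModel` for `J₀(N)[ℓ^k]` with `torsAct` is literally the frozen S19 conclusion. -/
theorem flatModel_iff_s19 (ℓ : ℕ) (k : ℕ) :
    FlatModel ℓ ↥(Submodule.torsionBy ℤ (JZero N) ((ℓ : ℤ) ^ k)) (torsAct N ((ℓ : ℤ) ^ k)) ↔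
    ∃ (H : Type) (_ : CommRing H) (_ : HopfAlgebra (GaloisRep.ratLocalizedAt ℓ) H),
      Module.Finite (GaloisRep.ratLocalizedAt ℓ) H ∧ Module.Flat (GaloisRep.ratLocalizedAt ℓ) H ∧
      Coalgebra.IsCocomm (GaloisRep.ratLocalizedAt ℓ) H ∧
      ∃ e : WithConv (H →ₐ[GaloisRep.ratLocalizedAt ℓ] AlgebraicClosure ℚ) ≃
          ↥(Submodule.torsionBy ℤ (JZero N) ((ℓ : ℤ) ^ k)),
        (∀ f g, e (f * g) = e f + e g) ∧
        ∀ (σ : AlgebraicClosure ℚ ≃ₐ[ℚ] AlgebraicClosure ℚ)
          (f g : WithConv (H →ₐ[GaloisRep.ratLocalizedAt ℓ] AlgebraicClosure ℚ)),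
          (∀ h : H, g h = σ (f h)) → ((e g : JZero N)) = σ • (e f : JZero N) := by
  constructor
  · rintro ⟨H, i1, i2, hfin, hflat, hco, e, hmul, hact⟩
    exact ⟨H, i1, i2, hfin, hflat, hco, e, hmul, fun σ f g hfg =>
      congrArg Subtype.val (hact σ f g hfg)⟩
  · rintro ⟨H, i1, i2, hfin, hflat, hco, e, hmul, hact⟩
    exact ⟨H, i1, i2, hfin, hflat, hco, e, hmul, fun σ f g hfg =>
      Subtype.ext (hact σ f g hfg)⟩

end Torsion

/-! ### Descent of the level -/

section Level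

variable {ℓ : ℕ} [Fact ℓ.Prime] {N M : ℕ} [NeZero N] [NeZero M]

/-- `π^*` on `n`-torsion. -/
def pullTors (h : N ∣ M) (n : ℤ) :
    ↥(Submodule.torsionBy ℤ (JZero N) n) →+ ↥(Submodule.torsionBy ℤ (JZero M) n) where
  toFun x := ⟨levelPullback h (x : JZero N), by
    have hx := x.2
    rw [Submodule.mem_torsionBy_iff] at hx ⊢
    rw [← map_zsmul, hx, map_zero]⟩
  map_zero' := by
    apply Subtype.ext
    show levelPullback h ((0 : ↥(Submodule.torsionBy ℤ (JZero N) n)) : JZero N) = 0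
    rw [Submodule.coe_zero, map_zero]
  map_add' x y := by
    apply Subtype.ext
    show levelPullback h ((x + y : ↥(Submodule.torsionBy ℤ (JZero N) n)) : JZero N) =
      levelPullback h (x : JZero N) + levelPullback h (y : JZero N)
    rw [Submodule.coe_add, map_add]

@[simp]
theorem coe_pullTors (h : N ∣ M) (n : ℤ) (x : ↥(Submodule.torsionBy ℤ (JZero N) n)) :
    (pullTors h n x : JZero M) = levelPullback h (x : JZero N) := rfl

theorem pullTors_torsAct (h : N ∣ M) (n : ℤ) (σ : GQ) (x : ↥(Submodule.torsionBy ℤ (JZero N) n)) :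
    pullTors h n (torsAct N n σ x) = torsAct M n σ (pullTors h n x) := by
  apply Subtype.ext
  show levelPullback h (σ • (x : JZero N)) = σ • levelPullback h (x : JZero N)
  exact levelPullback_smul h σ _

/-- **Level descent, generic form**: if `π^* : JZero N → JZero M` is injective on `n`-torsion, a flat
model of `J₀(M)[n]` gives a flat model of `J₀(N)[n]` (arbitrary presentations `actN`, `actM` of the
Galois actions). -/
theorem flatModel_torsion_of_dvd (h : N ∣ M) (n : ℤ)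
    (hinj : ∀ x : JZero N, n • x = 0 → levelPullback h x = 0 → x = 0)
    (actM : GQ → ↥(Submodule.torsionBy ℤ (JZero M) n) → ↥(Submodule.torsionBy ℤ (JZero M) n))
    (hactM : ∀ σ x, (actM σ x : JZero M) = σ • (x : JZero M))
    (actN : GQ → ↥(Submodule.torsionBy ℤ (JZero N) n) → ↥(Submodule.torsionBy ℤ (JZero N) n))
    (hactN : ∀ σ x, (actN σ x : JZero N) = σ • (x : JZero N))
    (hM : FlatModel ℓ ↥(Submodule.torsionBy ℤ (JZero M) n) actM) :
    FlatModel ℓ ↥(Submodule.torsionBy ℤ (JZero N) n) actN := by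
  have hactM' : actM = torsAct M n := by
    funext σ x
    exact Subtype.ext (hactM σ x)
  have hactN' : actN = torsAct N n := by
    funext σ x
    exact Subtype.ext (hactN σ x)
  subst hactM' hactN'
  refine FlatModel.of_injective (pullTors h n) ?_ (pullTors_torsAct h n) hM
  rw [injective_iff_map_eq_zero]
  intro x hx
  apply Subtype.ext
  have hx' : levelPullback h (x : JZero N) = 0 := congrArg Subtype.val hx
  have hn : n • (x : JZero N) = 0 := (Submodule.mem_torsionBy_iff _ _).1 x.2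
  rw [Submodule.coe_zero]
  exact hinj _ hn hx'

end Level

section Aux

variable (ℓ : ℕ) [Fact ℓ.Prime] (N : ℕ) [NeZero N]

/-- **Level descent from the auxiliary level** `auxLevel ℓ N` (`= lcm N 4`, resp. `lcm N 9` for
`ℓ = 2`) to `N`, for `m`-torsion, `m > 0`. -/
theorem flatModel_torsion_of_auxLevel (m : ℕ) (hm : 0 < m)
    (hM : haveI := Fermat.Agent.RED.LVL.LevelDegree17.neZero_auxLevel ℓ N
      FlatModel ℓ ↥(Submodule.torsionBy ℤ (JZero (auxLevel ℓ N)) (m : ℤ))
        (torsAct (auxLevel ℓ N) (m : ℤ))) :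
    FlatModel ℓ ↥(Submodule.torsionBy ℤ (JZero N) (m : ℤ)) (torsAct N (m : ℤ)) := by
  have := Fermat.Agent.RED.LVL.LevelDegree17.neZero_auxLevel ℓ N
  refine flatModel_torsion_of_dvd (dvd_auxLevel ℓ N) (m : ℤ) (fun x hx hx0 => ?_) _
    (fun _ _ => rfl) _ (fun _ _ => rfl) hM
  refine levelPullback_auxLevel_eq_zero ℓ N m hm x ?_ hx0
  rw [← natCast_zsmul]
  exact hx

/-- **Level descent, in the literal shape of the frozen S19 conclusion**: the S19 conclusion for
`(auxLevel ℓ N, ℓ, k)` implies the S19 conclusion for `(N, ℓ, k)`. -/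
theorem s19_of_auxLevel (k : ℕ)
    (hM : ∃ (H : Type) (_ : CommRing H) (_ : HopfAlgebra (GaloisRep.ratLocalizedAt ℓ) H),
      Module.Finite (GaloisRep.ratLocalizedAt ℓ) H ∧ Module.Flat (GaloisRep.ratLocalizedAt ℓ) H ∧
      Coalgebra.IsCocomm (GaloisRep.ratLocalizedAt ℓ) H ∧
      ∃ e : WithConv (H →ₐ[GaloisRep.ratLocalizedAt ℓ] AlgebraicClosure ℚ) ≃
          ↥(Submodule.torsionBy ℤ (JZero (auxLevel ℓ N)) ((ℓ : ℤ) ^ k)),
        (∀ f g, e (f * g) = e f + e g) ∧
        ∀ (σ : AlgebraicClosure ℚ ≃ₐ[ℚ] AlgebraicClosure ℚ)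
          (f g : WithConv (H →ₐ[GaloisRep.ratLocalizedAt ℓ] AlgebraicClosure ℚ)),
          (∀ h : H, g h = σ (f h)) →
            ((e g : JZero (auxLevel ℓ N))) = σ • (e f : JZero (auxLevel ℓ N))) :
    ∃ (H : Type) (_ : CommRing H) (_ : HopfAlgebra (GaloisRep.ratLocalizedAt ℓ) H),
      Module.Finite (GaloisRep.ratLocalizedAt ℓ) H ∧ Module.Flat (GaloisRep.ratLocalizedAt ℓ) H ∧
      Coalgebra.IsCocomm (GaloisRep.ratLocalizedAt ℓ) H ∧
      ∃ e : WithConv (H →ₐ[GaloisRep.ratLocalizedAt ℓ] AlgebraicClosure ℚ) ≃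
          ↥(Submodule.torsionBy ℤ (JZero N) ((ℓ : ℤ) ^ k)),
        (∀ f g, e (f * g) = e f + e g) ∧
        ∀ (σ : AlgebraicClosure ℚ ≃ₐ[ℚ] AlgebraicClosure ℚ)
          (f g : WithConv (H →ₐ[GaloisRep.ratLocalizedAt ℓ] AlgebraicClosure ℚ)),
          (∀ h : H, g h = σ (f h)) → ((e g : JZero N)) = σ • (e f : JZero N) := by
  have hℓ : 0 < ℓ := (Fact.out : ℓ.Prime).pos
  have hcast : ((ℓ ^ k : ℕ) : ℤ) = (ℓ : ℤ) ^ k := by push_cast; rfl
  rw [← flatModel_iff_s19] at hM ⊢
  rw [← hcast] at hM ⊢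
  exact flatModel_torsion_of_auxLevel ℓ N (ℓ ^ k) (pow_pos hℓ k) hM

/-- **The frozen S19 statement follows from the frozen S19 statement at the levels divisible by `4` or
by `9`** (the levels `auxLevel ℓ N` at which the smooth two-chart model of `X₀` exists). -/
theorem s19_of_s19_at_auxLevels
    (hAux : ∀ (M : ℕ) [NeZero M] (ℓ : ℕ) [Fact ℓ.Prime], ¬ ℓ ∣ M → ∀ k : ℕ, (4 ∣ M ∨ 9 ∣ M) →
      ∃ (H : Type) (_ : CommRing H) (_ : HopfAlgebra (GaloisRep.ratLocalizedAt ℓ) H),
        Module.Finite (GaloisRep.ratLocalizedAt ℓ) H ∧ Module.Flat (GaloisRep.ratLocalizedAt ℓ) H ∧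
        Coalgebra.IsCocomm (GaloisRep.ratLocalizedAt ℓ) H ∧
        ∃ e : WithConv (H →ₐ[GaloisRep.ratLocalizedAt ℓ] AlgebraicClosure ℚ) ≃
            ↥(Submodule.torsionBy ℤ (JZero M) ((ℓ : ℤ) ^ k)),
          (∀ f g, e (f * g) = e f + e g) ∧
          ∀ (σ : AlgebraicClosure ℚ ≃ₐ[ℚ] AlgebraicClosure ℚ)
            (f g : WithConv (H →ₐ[GaloisRep.ratLocalizedAt ℓ] AlgebraicClosure ℚ)),
            (∀ h : H, g h = σ (f h)) → ((e g : JZero M)) = σ • (e f : JZero M))
    (p : ℕ) [NeZero p] (ℓ : ℕ) [Fact ℓ.Prime] (hℓp : ¬ ℓ ∣ p) (k : ℕ) :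
    ∃ (H : Type) (_ : CommRing H) (_ : HopfAlgebra (GaloisRep.ratLocalizedAt ℓ) H),
      Module.Finite (GaloisRep.ratLocalizedAt ℓ) H ∧ Module.Flat (GaloisRep.ratLocalizedAt ℓ) H ∧
      Coalgebra.IsCocomm (GaloisRep.ratLocalizedAt ℓ) H ∧
      ∃ e : WithConv (H →ₐ[GaloisRep.ratLocalizedAt ℓ] AlgebraicClosure ℚ) ≃
          ↥(Submodule.torsionBy ℤ (JZero p) ((ℓ : ℤ) ^ k)),
        (∀ f g, e (f * g) = e f + e g) ∧
        ∀ (σ : AlgebraicClosure ℚ ≃ₐ[ℚ] AlgebraicClosure ℚ)
          (f g : WithConv (H →ₐ[GaloisRep.ratLocalizedAt ℓ] AlgebraicClosure ℚ)),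
          (∀ h : H, g h = σ (f h)) → ((e g : JZero p)) = σ • (e f : JZero p) := by
  have := Fermat.Agent.RED.LVL.LevelDegree17.neZero_auxLevel ℓ p
  refine s19_of_auxLevel ℓ p k (hAux (auxLevel ℓ p) ℓ (not_dvd_auxLevel Fact.out hℓp) k ?_)
  unfold auxLevel
  split_ifs
  · right; exact Nat.dvd_lcm_right _ _
  · left; exact Nat.dvd_lcm_right _ _

end Aux

end Fermat.Agent.FFJ.Level.Level72
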